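/-
P-ORD (S33), block (G-B), row 1149 N-F2 (helper10): the first half of the nodal two-step,
CONDITIONAL on the two reduction facts [GLUE-O] and [RED-RR]:

`f2FamilyN_of : GlueOStatement → RedRRStatement → AuxSectionsN → LiftBasisN → MovingZerosN →
    RedKernelN → CramerStatement → F2FamilyN`.

Port of `Fermat.Agent.H94.FF.f2Family` (helper94) to the two-component fibre: the reduced
condition matrix is indexed by smooth points of `X_s`, kernel vectors are glued pairs.
-/
import Fermat.Agent.H94.ORD.JacGlue
import Fermat.Agent.H94.FF.G7Kernel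
import Fermat.Agent.H69.ORD.NodalSysRR

set_option autoImplicit false
set_option synthInstance.maxHeartbeats 400000
set_option maxHeartbeats 3200000
set_option linter.style.haveILetI false
set_option linter.unusedSectionVars false

noncomputable section

open AlgebraicCurve ModularCurve Fermat.Agent.H27.ESD

namespace Fermat.Agent.H10.ORD

open Fermat.Agent.H10.FF Fermat.Agent.H72.FF Fermat.Agent.H18.ORD Fermat.Agent.H92.ORD
  Fermat.Agent.H94.FF Fermat.Agent.H94.ORD

variable {N p : ℕ} {A : ValuationSubring Qb} {Foo F0 : Type} [Field Foo] [Field F0]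
  [Algebra (kRes A) Foo] [Algebra (kRes A) F0] {ι : Type} {G : NodalData N A Foo F0 ι} {g : ℕ}

/-- **[GLUE-O]** the reductions of a doubly integral function without poles over the nodes form
a glued pair. -/
def GlueOStatement : Prop :=
  ∀ (N p : ℕ) (A : ValuationSubring Qb) (Foo F0 : Type) [Field Foo] [Field F0]
    [Algebra (kRes A) Foo] [Algebra (kRes A) F0] (ι : Type) (G : NodalData N A Foo F0 ι)
    (g : ℕ), NodalSetup N p A G g → NodalPkg G →
    ∀ m : nodalO G, (∀ P ν, G.r P = NPt.node ν → 0 ≤ P.ord (m : FLb N)) →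
      IsGlued G (redOoO G m) (red0O G m)

/-- **[RED-RR]** the reductions of a doubly integral element of `L(n (P_∞ + P_0))` lie in
`L(n Q_∞)` resp. `L(n Q_0)`. -/
def RedRRStatement : Prop :=
  ∀ (N p : ℕ) (A : ValuationSubring Qb) (Foo F0 : Type) [Field Foo] [Field F0]
    [Algebra (kRes A) Foo] [Algebra (kRes A) F0] (ι : Type) (G : NodalData N A Foo F0 ι)
    (g : ℕ), NodalSetup N p A G g → NodalPkg G →
    ∀ (Poo P0 : Place Qb (FLb N)) (Qoo : Place (kRes A) Foo) (Q0 : Place (kRes A) F0),
      G.r Poo = NPt.oo Qoo → G.r P0 = NPt.zero Q0 →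
      ∀ (n : ℕ) (m : nodalO G),
        (m : FLb N) ∈ riemannRochSpace
          (Finsupp.single Poo (n : ℤ) + Finsupp.single P0 (n : ℤ)) →
        redOoO G m ∈ riemannRochSpace (Finsupp.single Qoo (n : ℤ)) ∧
        red0O G m ∈ riemannRochSpace (Finsupp.single Q0 (n : ℤ))

/-! ### small lemmas -/

/-- elements of `L(n P + n P')` have no poles outside `P`, `P'` -/
theorem f2_ord_nonneg_of_mem_rr_two {K F : Type*} [Field K] [Field F] [Algebra K F]
    {P₁ P₂ : Place K F} {n : ℤ} {y : F}
    (hy : y ∈ riemannRochSpace (Finsupp.single P₁ n + Finsupp.single P₂ n)) {P : Place K F}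
    (h1 : P ≠ P₁) (h2 : P ≠ P₂) : 0 ≤ P.ord y := by
  classical
  rcases (mem_riemannRochSpace_iff.mp hy) P with h | h
  · rw [h, Place.ord_zero]
  · rw [Finsupp.add_apply, Finsupp.single_apply, Finsupp.single_apply, if_neg (Ne.symm h1),
      if_neg (Ne.symm h2)] at h
    simpa using h

/-- glued pairs are closed under addition -/
theorem f2_isGlued_add {x x' : Foo} {y y' : F0} (h : IsGlued G x y) (h' : IsGlued G x' y') :
    IsGlued G (x + x') (y + y') := by
  intro ν
  obtain ⟨κ, h1, h2⟩ := h ν
  obtain ⟨κ', h1', h2'⟩ := h' ν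
  refine ⟨κ + κ', ?_, ?_⟩
  · have : x + x' - algebraMap (kRes A) Foo (κ + κ') =
        (x - algebraMap (kRes A) Foo κ) + (x' - algebraMap (kRes A) Foo κ') := by
      rw [map_add]; ring
    rw [this]
    exact Fermat.Agent.H69.ORD.sys_nonunits_add _ h1 h1'
  · have : y + y' - algebraMap (kRes A) F0 (κ + κ') =
        (y - algebraMap (kRes A) F0 κ) + (y' - algebraMap (kRes A) F0 κ') := by
      rw [map_add]; ring
    rw [this]
    exact Fermat.Agent.H69.ORD.sys_nonunits_add _ h2 h2'

/-- glued pairs are closed under multiplication by constants -/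
theorem f2_isGlued_const_mul (c : kRes A) {x : Foo} {y : F0} (h : IsGlued G x y) :
    IsGlued G (algebraMap (kRes A) Foo c * x) (algebraMap (kRes A) F0 c * y) := by
  intro ν
  obtain ⟨κ, h1, h2⟩ := h ν
  refine ⟨c * κ, ?_, ?_⟩
  · have : algebraMap (kRes A) Foo c * x - algebraMap (kRes A) Foo (c * κ) =
        algebraMap (kRes A) Foo c * (x - algebraMap (kRes A) Foo κ) := by
      rw [map_mul]; ring
    rw [this]
    exact Fermat.Agent.H69.ORD.sys_nonunits_const_mul _ c h1
  · have : algebraMap (kRes A) F0 c * y - algebraMap (kRes A) F0 (c * κ) =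
        algebraMap (kRes A) F0 c * (y - algebraMap (kRes A) F0 κ) := by
      rw [map_mul]; ring
    rw [this]
    exact Fermat.Agent.H69.ORD.sys_nonunits_const_mul _ c h2

/-- the pair `(0, 0)` is glued -/
theorem f2_isGlued_zero : IsGlued G (0 : Foo) (0 : F0) := by
  intro ν
  refine ⟨0, ?_, ?_⟩
  · rw [map_zero, sub_zero]
    exact Fermat.Agent.H69.ORD.sys_zero_mem_nonunits _
  · rw [map_zero, sub_zero]
    exact Fermat.Agent.H69.ORD.sys_zero_mem_nonunits _

/-- glued pairs are closed under finite linear combinations -/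
theorem f2_isGlued_sum {d : ℕ} (c : Fin d → kRes A) (x : Fin d → Foo) (y : Fin d → F0)
    (h : ∀ j, IsGlued G (x j) (y j)) :
    IsGlued G (∑ j, algebraMap (kRes A) Foo (c j) * x j)
      (∑ j, algebraMap (kRes A) F0 (c j) * y j) := by
  classical
  have key : ∀ s : Finset (Fin d), IsGlued G (∑ j ∈ s, algebraMap (kRes A) Foo (c j) * x j)
      (∑ j ∈ s, algebraMap (kRes A) F0 (c j) * y j) := by
    intro s
    induction s using Finset.induction_on with
    | empty =>
      rw [Finset.sum_empty, Finset.sum_empty]
      exact f2_isGlued_zero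
    | insert a s ha ih =>
      rw [Finset.sum_insert ha, Finset.sum_insert ha]
      exact f2_isGlued_add (f2_isGlued_const_mul (c a) (h a)) ih
  exact key Finset.univ

/-- the value of the base divisor on `C_∞` at the specialisation of a base point -/
theorem f2_baseOo_apply_of_eq {O : Fin g → Place Qb (FLb N)}
    (hinj : Function.Injective fun i => G.r (O i)) (i : Fin g) (Q : Place (kRes A) Foo)
    (h : G.r (O i) = NPt.oo Q) : baseOo G O Q = 1 := by
  classical
  unfold baseOo
  rw [Finsupp.finsetSum_apply, Finset.sum_eq_single i]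
  · rw [h]
    simp
  · intro j _ hji
    rcases hj : G.r (O j) with Q' | Q' | ν
    · have hne : Q' ≠ Q := by
        rintro rfl
        exact hji (hinj (hj.trans h.symm))
      simp [hne]
    · simp
    · simp
  · intro hi
    exact absurd (Finset.mem_univ i) hi

/-- the value of the base divisor on `C_∞` outside the specialisations of the base points -/
theorem f2_baseOo_apply_of_ne {O : Fin g → Place Qb (FLb N)} (Q : Place (kRes A) Foo)
    (h : ∀ i, G.r (O i) ≠ NPt.oo Q) : baseOo G O Q = 0 := by
  classical
  unfold baseOo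
  rw [Finsupp.finsetSum_apply]
  refine Finset.sum_eq_zero fun j _ => ?_
  rcases hj : G.r (O j) with Q' | Q' | ν
  · have hne : Q' ≠ Q := by
      rintro rfl
      exact h j hj
    simp [hne]
  · simp
  · simp

/-- the value of the base divisor on `C_0` at the specialisation of a base point -/
theorem f2_baseZero_apply_of_eq {O : Fin g → Place Qb (FLb N)}
    (hinj : Function.Injective fun i => G.r (O i)) (i : Fin g) (Q : Place (kRes A) F0)
    (h : G.r (O i) = NPt.zero Q) : baseZero G O Q = 1 := by
  classical
  unfold baseZero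
  rw [Finsupp.finsetSum_apply, Finset.sum_eq_single i]
  · rw [h]
    simp
  · intro j _ hji
    rcases hj : G.r (O j) with Q' | Q' | ν
    · simp
    · have hne : Q' ≠ Q := by
        rintro rfl
        exact hji (hinj (hj.trans h.symm))
      simp [hne]
    · simp
  · intro hi
    exact absurd (Finset.mem_univ i) hi

/-- the value of the base divisor on `C_0` outside the specialisations of the base points -/
theorem f2_baseZero_apply_of_ne {O : Fin g → Place Qb (FLb N)} (Q : Place (kRes A) F0)
    (h : ∀ i, G.r (O i) ≠ NPt.zero Q) : baseZero G O Q = 0 := by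
  classical
  unfold baseZero
  rw [Finsupp.finsetSum_apply]
  refine Finset.sum_eq_zero fun j _ => ?_
  rcases hj : G.r (O j) with Q' | Q' | ν
  · simp
  · have hne : Q' ≠ Q := by
      rintro rfl
      exact h j hj
    simp [hne]
  · simp

/-- a linear combination of functions with given reduced values at the smooth point `v`
vanishes at `v` if the combination of the values is zero -/
theorem f2_vanishAt_of_redVal (v : NP A Foo F0 ι) {d : ℕ} (m : Fin d → nodalO G)
    (κ : Fin d → kRes A) (hκ : ∀ j, RedVal G v (m j : FLb N) (κ j)) (w : Fin d → kRes A)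
    (h0 : ∑ j, κ j * w j = 0) :
    VanishAt (ι := ι) (∑ j, algebraMap (kRes A) Foo (w j) * redOoO G (m j))
      (∑ j, algebraMap (kRes A) F0 (w j) * red0O G (m j)) v := by
  rcases v with Q | Q | ν
  · show HasVal Q _ 0
    have h1 : HasVal Q (∑ j, algebraMap (kRes A) Foo (w j) * redOoO G (m j))
        (∑ j, w j * κ j) :=
      hasVal_sum _ _ _ fun j _ => by
        obtain ⟨h, hv⟩ := hκ j
        exact HasVal.const_mul _ hv
    have h2 : ∑ j, w j * κ j = 0 := by
      rw [← h0]
      exact Finset.sum_congr rfl fun j _ => mul_comm _ _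
    rwa [h2] at h1
  · show HasVal Q _ 0
    have h1 : HasVal Q (∑ j, algebraMap (kRes A) F0 (w j) * red0O G (m j))
        (∑ j, w j * κ j) :=
      hasVal_sum _ _ _ fun j _ => by
        obtain ⟨h, hv⟩ := hκ j
        exact HasVal.const_mul _ hv
    have h2 : ∑ j, w j * κ j = 0 := by
      rw [← h0]
      exact Finset.sum_congr rfl fun j _ => mul_comm _ _
    rwa [h2] at h1
  · trivial

end Fermat.Agent.H10.ORD

end
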