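/-
P-ORD (S33), block (G-B), row 1149 N-F2 (helper10): the first half of the nodal two-step,
CONDITIONAL on the two reduction facts [GLUE-O] and [RED-RR] (`Fermat.Agent.H10.ORD.F2Core`):

`f2FamilyN_of : GlueOStatement → RedRRStatement → AuxSectionsN → LiftBasisN → MovingZerosN →
    RedKernelN → CramerStatement → F2FamilyN`.

Port of `Fermat.Agent.H94.FF.f2Family` (helper94).
-/
import Fermat.Agent.H10.ORD.F2Core

set_option autoImplicit false
set_option synthInstance.maxHeartbeats 400000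
set_option maxHeartbeats 3200000
set_option linter.style.haveILetI false
set_option linter.unusedSectionVars false

noncomputable section

open AlgebraicCurve ModularCurve Fermat.Agent.H27.ESD

namespace Fermat.Agent.H10.ORD

open Fermat.Agent.H10.FF Fermat.Agent.H72.FF Fermat.Agent.H18.ORD Fermat.Agent.H92.ORD
  Fermat.Agent.H94.FF Fermat.Agent.H94.ORD

variable {N p : ℕ} {A : ValuationSubring Qb} {Foo F0 : Type} [Field Foo] [Field F0]
  [Algebra (kRes A) Foo] [Algebra (kRes A) F0] {ι : Type} {G : NodalData N A Foo F0 ι} {g : ℕ}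

/-- the index type of the conditions -/
abbrev CondIdxN {g : ℕ} (Zx : Fin g ⊕ Fin g → Finset (NP A Foo F0 ι)) : Type :=
  Fin g ⊕ (Σ a : Fin g ⊕ Fin g, {v // v ∈ Zx a})

theorem card_condIdxN {g : ℕ} (Zx : Fin g ⊕ Fin g → Finset (NP A Foo F0 ι))
    (nn : Fin g ⊕ Fin g → ℕ) (hcard : ∀ a, (Zx a).card + 1 = 2 * nn a) :
    Fintype.card (CondIdxN Zx) + g = 2 * ∑ a, nn a := by
  rw [Fintype.card_sum, Fintype.card_fin, Fintype.card_sigma]
  have h1 : ∀ a, Fintype.card {v // v ∈ Zx a} = (Zx a).card := fun a => Fintype.card_coe _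
  simp only [h1]
  have h2 : 2 * ∑ a, nn a = ∑ a, ((Zx a).card + 1) := by
    rw [Finset.mul_sum]
    exact Finset.sum_congr rfl fun a _ => (hcard a).symm
  rw [h2, Finset.sum_add_distrib, Finset.sum_const, Finset.card_univ, Fintype.card_sum,
    Fintype.card_fin]
  simp
  omega

theorem f2_coe_sum_nodalConst_mul (H : NodalRvHyp p G) {d : ℕ} (κ : Fin d → A)
    (m : Fin d → nodalO G) :
    (((∑ j, nodalConst H (κ j) * m j : nodalO G)) : FLb N) =
      ∑ j, algebraMap Qb (FLb N) (κ j : Qb) * (m j : FLb N) := by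
  rw [AddSubmonoidClass.coe_finsetSum]
  rfl

theorem f2FamilyN_of (hGlue : GlueOStatement) (hRR : RedRRStatement) (hAux : AuxSectionsN)
    (hBasis : LiftBasisN) (hMov : MovingZerosN) (hRK : RedKernelN) (hCr : CramerStatement) :
    F2FamilyN := by
  intro N p A Foo F0 _ _ _ _ ι G g hS hPkg O t hsys hg S _ n x hx Pt τ hPt hτv hτ
  classical
  have H := hS.rv
  have hdegL := hS.pkgL.deg_one
  obtain ⟨gOo, gZ, hpkOo, hpkZ, -⟩ := hPkg.nc g hS.pkgL
  obtain ⟨Poo, P0, Qoo, Q0, hPoo, hP0, hPooU, hP0U, hAux'⟩ :=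
    hAux N p A Foo F0 ι G g hS hPkg O t hsys
  obtain ⟨n₀, hB⟩ := hBasis N p A Foo F0 ι G g hS hPkg Poo P0 Qoo Q0 hPoo hP0 hPooU hP0U
  obtain ⟨nn, u, Zx, hnn, huU, huL, hfam⟩ := hAux' n₀
  have hn' : n₀ ≤ ∑ a, nn a :=
    (hnn (Sum.inl ⟨0, hg⟩)).trans
      (Finset.single_le_sum (f := nn) (fun _ _ => Nat.zero_le _) (Finset.mem_univ _))
  obtain ⟨d, m, hd, hmU, hmL, hmind, -⟩ := hB (∑ a, nn a) hn'
  obtain ⟨α, E, hα, hαapp, hαnu, hEr, hEzero, hEuniq, hEapp⟩ :=
    hMov N p A Foo F0 ι G g hS hPkg O t hsys S n x hx Pt τ hPt hτv hτ Poo P0 Qoo Q0 nn u Zx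
      hPoo hP0 huU huL hfam
  -- the conditions
  have hcard : Fintype.card (CondIdxN Zx) + 1 = d := by
    have h1 := card_condIdxN Zx nn hfam.card
    omega
  subst hcard
  let e : CondIdxN Zx ≃ Fin (Fintype.card (CondIdxN Zx)) := Fintype.equivFin _
  let pt : CondIdxN Zx → S → Place Qb (FLb N) :=
    fun c s => Sum.elim (fun i => O i) (fun q => E q.1 q.2.1 s) c
  let Qc : CondIdxN Zx → NP A Foo F0 ι := Sum.elim (fun i => G.r (O i)) (fun q => q.2.1)
  have hptr : ∀ c s, G.r (pt c s) = Qc c := by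
    intro c s
    rcases c with i | q
    · rfl
    · exact hEr q.1 q.2.1 q.2.2 s
  have hQsm : ∀ c, IsSm G (Qc c) := by
    intro c
    rcases c with i | q
    · exact nodalCoord_isSm H (hsys.coord i)
    · exact hfam.sm_extra q.1 q.2.1 q.2.2
  have hQc_ne : ∀ c, Qc c ≠ NPt.oo Qoo ∧ Qc c ≠ NPt.zero Q0 := by
    intro c
    rcases c with i | q
    · exact hfam.qinf_ne i
    · constructor
      · intro h
        exact (hfam.qinf_notMem q.1).1 (h ▸ q.2.2)
      · intro h
        exact (hfam.qinf_notMem q.1).2 (h ▸ q.2.2)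
  have hm_np : ∀ j c P1, G.r P1 = Qc c → 0 ≤ P1.ord (m j : FLb N) := by
    intro j c P1 h
    refine f2_ord_nonneg_of_mem_rr_two (hmL j) ?_ ?_
    · rintro rfl
      exact (hQc_ne c).1 (h.symm.trans hPoo)
    · rintro rfl
      exact (hQc_ne c).2 (h.symm.trans hP0)
  have hm_node : ∀ j P ν, G.r P = NPt.node ν → 0 ≤ P.ord (m j : FLb N) := by
    intro j P ν h
    refine f2_ord_nonneg_of_mem_rr_two (hmL j) ?_ ?_
    · rintro rfl
      rw [hPoo] at h
      cases h
    · rintro rfl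
      rw [hP0] at h
      cases h
  have hmC : ∀ j c, InComp G (Qc c) (m j : FLb N) :=
    fun j c => inComp_of_mem (Qc c) (hQsm c) (m j).2
  have hCv : ∀ c j s, HasValue (pt c s) (m j : FLb N) (valAt (pt c s) (m j : FLb N)) :=
    fun c j s => hasVal_valAt_of_ord (hdegL _) (hm_np j c _ (hptr c s))
  have hCres : ∀ (c : CondIdxN Zx) j s, ∃ h : valAt (pt c s) (m j : FLb N) ∈ A,
      RedVal G (Qc c) (m j : FLb N)
        (IsLocalRing.residue A ⟨valAt (pt c s) (m j : FLb N), h⟩) :=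
    fun c j s => hasValue_red_nodal hS (Qc c) (hQsm c) (m j) (hmC j c) (hm_np j c) (pt c s)
      (hptr c s) _ (hCv c j s)
  -- the reductions of the basis
  have hmL' : ∀ j, redOoO G (m j) ∈ riemannRochSpace
      (Finsupp.single Qoo (((∑ a, nn a : ℕ)) : ℤ)) ∧
      red0O G (m j) ∈ riemannRochSpace (Finsupp.single Q0 (((∑ a, nn a : ℕ)) : ℤ)) :=
    fun j => hRR N p A Foo F0 ι G g hS hPkg Poo P0 Qoo Q0 hPoo hP0 _ (m j) (hmL j)
  have hmG : ∀ j, IsGlued G (redOoO G (m j)) (red0O G (m j)) :=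
    fun j => hGlue N p A Foo F0 ι G g hS hPkg (m j) (hm_node j)
  -- the matrices
  let C : Fin (Fintype.card (CondIdxN Zx)) → Fin (Fintype.card (CondIdxN Zx) + 1) → S → Qb :=
    fun c j s => valAt (pt (e.symm c) s) (m j : FLb N)
  let Cbar : S → Fin (Fintype.card (CondIdxN Zx)) → Fin (Fintype.card (CondIdxN Zx) + 1) →
      kRes A := fun s c j =>
    IsLocalRing.residue A ⟨valAt (pt (e.symm c) s) (m j : FLb N), (hCres (e.symm c) j s).1⟩
  have hCbar : ∀ s c j, RedVal G (Qc (e.symm c)) (m j : FLb N) (Cbar s c j) :=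
    fun s c j => (hCres (e.symm c) j s).2
  have hCapp' : ∀ (c : CondIdxN Zx) j,
      IsApprox p A x (fun s => valAt (pt c s) (m j : FLb N)) := by
    intro c j
    rcases c with i | q
    · show IsApprox p A x (fun _ => valAt (O i) (m j : FLb N))
      refine isApprox_const' ?_
      exact isUnr_value_mem_unrInt_nodal hS (G.r (O i)) (hQsm (Sum.inl i)) (m j)
        (hmC j (Sum.inl i)) (O i) rfl (hm_np j (Sum.inl i)) (hsys.coord i).unrP (hmU j) _
        (hasVal_valAt_of_ord (hdegL _) (hm_np j (Sum.inl i) (O i) rfl))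
    · exact hEapp q.1 q.2.1 q.2.2 (m j) (hmU j) (hmC j (Sum.inr q))
        (fun P1 h => hm_np j (Sum.inr q) P1 h) _ (fun s => hCv (Sum.inr q) j s)
  -- vanishing of the pair `(∑ w_j red_∞ m_j, ∑ w_j red_0 m_j)` from the linear conditions
  have key : ∀ (s : S) (w : Fin (Fintype.card (CondIdxN Zx) + 1) → kRes A),
      (∀ c, ∑ j, Cbar s c j * w j = 0) → ∀ c' : CondIdxN Zx,
        VanishAt (ι := ι) (∑ j, algebraMap (kRes A) Foo (w j) * redOoO G (m j))
          (∑ j, algebraMap (kRes A) F0 (w j) * red0O G (m j)) (Qc c') := by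
    intro s w hw c'
    have h1 := f2_vanishAt_of_redVal (Qc (e.symm (e c'))) m (fun j => Cbar s (e c') j)
      (fun j => hCbar s (e c') j) w (hw (e c'))
    rwa [Equiv.symm_apply_apply] at h1
  -- the pair of a kernel vector is a multiple of `(∏ red_∞ u_a, ∏ red_0 u_a)`
  have hpair : ∀ (s : S) (w : Fin (Fintype.card (CondIdxN Zx) + 1) → kRes A),
      (∀ c, ∑ j, Cbar s c j * w j = 0) → ∃ γ : kRes A,
        (∑ j, algebraMap (kRes A) Foo (w j) * redOoO G (m j) =
          algebraMap (kRes A) Foo γ * ∏ a, redOoO G (u a)) ∧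
        (∑ j, algebraMap (kRes A) F0 (w j) * red0O G (m j) =
          algebraMap (kRes A) F0 γ * ∏ a, red0O G (u a)) := by
    intro s w hw
    have hvan := key s w hw
    have hxL : (∑ j, algebraMap (kRes A) Foo (w j) * redOoO G (m j)) ∈
        riemannRochSpace (Finsupp.single Qoo (((∑ a, nn a : ℕ)) : ℤ)) := by
      refine Submodule.sum_mem _ fun j _ => ?_
      rw [← Algebra.smul_def]
      exact Submodule.smul_mem _ _ (hmL' j).1
    have hyL : (∑ j, algebraMap (kRes A) F0 (w j) * red0O G (m j)) ∈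
        riemannRochSpace (Finsupp.single Q0 (((∑ a, nn a : ℕ)) : ℤ)) := by
      refine Submodule.sum_mem _ fun j _ => ?_
      rw [← Algebra.smul_def]
      exact Submodule.smul_mem _ _ (hmL' j).2
    exact hRK N A Foo F0 ι G gOo gZ hpkOo hpkZ g (fun i => G.r (O i)) hsys.inj
      (fun i => nodalCoord_isSm H (hsys.coord i)) (baseOo G O) (baseZero G O) hsys.base
      (fun i Q h => f2_baseOo_apply_of_eq hsys.inj i Q h)
      (fun Q h => f2_baseOo_apply_of_ne Q h)
      (fun i Q h => f2_baseZero_apply_of_eq hsys.inj i Q h)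
      (fun Q h => f2_baseZero_apply_of_ne Q h)
      Qoo Q0 nn (fun a => redOoO G (u a)) (fun a => red0O G (u a)) Zx hfam _ _ hxL hyL
      (f2_isGlued_sum w _ _ hmG) (fun i => hvan (Sum.inl i))
      (fun a v hv => hvan (Sum.inr ⟨a, ⟨v, hv⟩⟩))
  have hker : ∀ s, ∀ v w : Fin (Fintype.card (CondIdxN Zx) + 1) → kRes A,
      (∀ c, ∑ j, Cbar s c j * v j = 0) → (∀ c, ∑ j, Cbar s c j * w j = 0) → v ≠ 0 →
      ∃ a : kRes A, w = a • v := by
    intro s v w hv hw hv0
    obtain ⟨cv, hcv1, hcv2⟩ := hpair s v hv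
    obtain ⟨cw, hcw1, hcw2⟩ := hpair s w hw
    have hcv0 : cv ≠ 0 := by
      rintro rfl
      rw [map_zero, zero_mul] at hcv1 hcv2
      exact hv0 (hmind v hcv1 hcv2)
    refine ⟨cw / cv, ?_⟩
    have h1 : ∑ j, algebraMap (kRes A) Foo (w j - cw / cv * v j) * redOoO G (m j) = 0 := by
      have h2 : ∑ j, algebraMap (kRes A) Foo (w j - cw / cv * v j) * redOoO G (m j) =
          (∑ j, algebraMap (kRes A) Foo (w j) * redOoO G (m j)) -
            algebraMap (kRes A) Foo (cw / cv) *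
              (∑ j, algebraMap (kRes A) Foo (v j) * redOoO G (m j)) := by
        rw [Finset.mul_sum, ← Finset.sum_sub_distrib]
        refine Finset.sum_congr rfl fun j _ => ?_
        rw [map_sub, map_mul]
        ring
      rw [h2, hcv1, hcw1, ← mul_assoc, ← map_mul, div_mul_cancel₀ cw hcv0, sub_self]
    have h1' : ∑ j, algebraMap (kRes A) F0 (w j - cw / cv * v j) * red0O G (m j) = 0 := by
      have h2 : ∑ j, algebraMap (kRes A) F0 (w j - cw / cv * v j) * red0O G (m j) =
          (∑ j, algebraMap (kRes A) F0 (w j) * red0O G (m j)) -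
            algebraMap (kRes A) F0 (cw / cv) *
              (∑ j, algebraMap (kRes A) F0 (v j) * red0O G (m j)) := by
        rw [Finset.mul_sum, ← Finset.sum_sub_distrib]
        refine Finset.sum_congr rfl fun j _ => ?_
        rw [map_sub, map_mul]
        ring
      rw [h2, hcv2, hcw2, ← mul_assoc, ← map_mul, div_mul_cancel₀ cw hcv0, sub_self]
    have h3 := hmind (fun j => w j - cw / cv * v j) h1 h1'
    funext j
    have h4 := congrFun h3 j
    simp only [Pi.zero_apply] at h4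
    simp only [Pi.smul_apply, smul_eq_mul]
    linear_combination h4
  obtain ⟨κ, hκapp, hκA, hκker, hκunit⟩ := hCr p A hS.prime hS.liesOver S n x hx
    (Fintype.card (CondIdxN Zx)) C Cbar (fun c j => hCapp' (e.symm c) j)
    (fun c j s => ⟨(hCres (e.symm c) j s).1, rfl⟩) hker
  let κA : Fin (Fintype.card (CondIdxN Zx) + 1) → S → A := fun j s => ⟨κ j s, hκA j s⟩
  -- vanishing of `F2` at the points
  have hvan : ∀ s (c' : CondIdxN Zx), HasValue (pt c' s)
      (∑ j, algebraMap Qb (FLb N) (κA j s : Qb) * (m j : FLb N)) 0 := by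
    intro s c'
    have h1 : HasVal (pt c' s) (∑ j, algebraMap Qb (FLb N) (κ j s) * (m j : FLb N))
        (∑ j, κ j s * valAt (pt c' s) (m j : FLb N)) :=
      hasVal_sum _ _ _ fun j _ => HasVal.const_mul _ (hCv c' j s)
    have h2 : ∑ j, κ j s * valAt (pt c' s) (m j : FLb N) = 0 := by
      have := hκker s (e c')
      simp only [C, Equiv.symm_apply_apply] at this
      rw [← this]
      exact Finset.sum_congr rfl fun j _ => mul_comm _ _
    rw [h2] at h1
    exact h1
  refine ⟨Poo, P0, Qoo, Q0, nn, u, Zx, α, _, m, κA, hPoo, hP0, huL, hfam, hα, hmU, hmL,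
    hκapp, ?_, fun s i => hvan s (Sum.inl i), ?_⟩
  · -- the reduction
    intro s
    have hκbar : ∀ c, ∑ j, Cbar s c j * IsLocalRing.residue A (κA j s) = 0 := by
      intro c
      simp only [Cbar, ← map_mul, ← map_sum]
      have h2 : (∑ j, (⟨valAt (pt (e.symm c) s) (m j : FLb N),
          (hCres (e.symm c) j s).1⟩ : A) * κA j s) = 0 := by
        apply Subtype.ext
        rw [AddSubmonoidClass.coe_finsetSum]
        exact hκker s c
      rw [h2, map_zero]
    obtain ⟨γ, hγ1, hγ2⟩ := hpair s (fun j => IsLocalRing.residue A (κA j s)) hκbar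
    refine ⟨γ, ?_, hγ1, hγ2⟩
    rintro rfl
    rw [map_zero, zero_mul] at hγ1 hγ2
    have hli := hmind (fun j => IsLocalRing.residue A (κA j s)) hγ1 hγ2
    obtain ⟨j, hj0, hjinv⟩ := hκunit s
    have hu : IsUnit (κA j s) := by
      refine IsUnit.of_mul_eq_one (⟨(κ j s)⁻¹, hjinv⟩ : A) ?_
      apply Subtype.ext
      show κ j s * (κ j s)⁻¹ = 1
      exact mul_inv_cancel₀ hj0
    exact (nv_residue_ker (κA j s)).mp (congrFun hli j) hu
  · -- vanishing at the zeros of `u a - α a s`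
    intro s a v hv P1 hP1 h0
    have h1 := hEuniq a v hv s P1 hP1 h0
    rw [h1]
    exact hvan s (Sum.inr ⟨a, ⟨v, hv⟩⟩)

end Fermat.Agent.H10.ORD

end
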