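/-
P-ORD (S33), block (G-B), row 1149 N-F2 (helper10): the reduction fact [RED-RR].

`redRR : RedRRStatement` : the reductions of a doubly integral element of `L(n (P_∞ + P_0))` lie
in `L(n Q_∞)` resp. `L(n Q_0)`.

Proof.  Let `x = red_∞ m ≠ 0`.  At a node branch `x` is regular by GLUE-O (helper69,
`Fermat.Agent.H69.ORD.glueO_of_pkg`).  At a smooth point `Q ≠ Q_∞` the function `m` has no pole
on the disc of `Q`, hence `0 ≤ ord_Q x` (`CompHyp.ord_red_nonneg`).  At `Q_∞` the conservation law
gives `ord_{Q_∞} x = ∑_{r P = Q_∞} ord_P m ≥ -n`, the only possible pole on the disc being `P_∞`.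
-/
import Fermat.Agent.H10.ORD.F2Core
import Fermat.Agent.H69.ORD.GlueO

set_option autoImplicit false
set_option synthInstance.maxHeartbeats 400000
set_option maxHeartbeats 3200000
set_option linter.style.haveILetI false
set_option linter.unusedSectionVars false

noncomputable section

open AlgebraicCurve ModularCurve Fermat.Agent.H27.ESD

namespace Fermat.Agent.H10.ORD

open Fermat.Agent.H10.FF Fermat.Agent.H72.FF Fermat.Agent.H18.ORD Fermat.Agent.H92.ORD
  Fermat.Agent.H94.FF Fermat.Agent.H94.ORD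

variable {N p : ℕ} {A : ValuationSubring Qb} {Foo F0 : Type} [Field Foo] [Field F0]
  [Algebra (kRes A) Foo] [Algebra (kRes A) F0] {ι : Type} {G : NodalData N A Foo F0 ι} {g : ℕ}

/-- a push-forward bound with one exceptional point in the fibre -/
theorem f2_mapDomain_ge_of_fibre {α β : Type*} (f : α → β) (D : α →₀ ℤ) (b : β) (a₀ : α)
    (n : ℤ) (ha₀ : f a₀ = b) (h0 : -n ≤ D a₀) (hD : ∀ a', f a' = b → a' ≠ a₀ → 0 ≤ D a') :
    -n ≤ Finsupp.mapDomain f D b := by
  classical
  have h1 : 0 ≤ Finsupp.mapDomain f (D + Finsupp.single a₀ n) b := by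
    refine Fermat.Agent.H18.rv_mapDomain_nonneg_fibre f (D + Finsupp.single a₀ n) b ?_
    intro a' ha'
    rw [Finsupp.add_apply, Finsupp.single_apply]
    by_cases h : a₀ = a'
    · rw [if_pos h]
      subst h
      omega
    · rw [if_neg h]
      have := hD a' ha' (Ne.symm h)
      omega
  rw [Finsupp.mapDomain_add, Finsupp.add_apply, Finsupp.mapDomain_single, Finsupp.single_apply,
    if_pos ha₀] at h1
  omega

/-- an element differing from a constant by an element of the maximal ideal of a place is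
regular at the place -/
theorem f2_ord_nonneg_of_sub_const {K F : Type*} [Field K] [Field F] [Algebra K F]
    (v : Place K F) {x : F} {κ : K}
    (h : x - algebraMap K F κ ∈ v.toValuationSubring.nonunits) : 0 ≤ v.ord x := by
  have h1 : x - algebraMap K F κ ∈ v.toValuationSubring :=
    v.toValuationSubring.nonunits_subset h
  have h2 : algebraMap K F κ ∈ v.toValuationSubring := v.algebraMap_mem' κ
  have h3 : x ∈ v.toValuationSubring := by
    have := v.toValuationSubring.add_mem _ _ h1 h2
    rwa [sub_add_cancel] at this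
  exact Fermat.Agent.H23.ord_nonneg_of_mem v h3

/-- the functions of `L(n (P_∞ + P_0))` have no pole over the nodes -/
theorem f2_nopole_node {Poo P0 : Place Qb (FLb N)} {Qoo : Place (kRes A) Foo}
    {Q0 : Place (kRes A) F0} (hPoo : G.r Poo = NPt.oo Qoo) (hP0 : G.r P0 = NPt.zero Q0)
    {n : ℤ} {y : FLb N}
    (hy : y ∈ riemannRochSpace (Finsupp.single Poo n + Finsupp.single P0 n))
    (P : Place Qb (FLb N)) (ν : ι) (h : G.r P = NPt.node ν) : 0 ≤ P.ord y := by
  refine f2_ord_nonneg_of_mem_rr_two hy ?_ ?_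
  · rintro rfl
    rw [hPoo] at h
    cases h
  · rintro rfl
    rw [hP0] at h
    cases h

/-- **[RED-RR]**, the component `C_∞` -/
theorem redRR_oo (hS : NodalSetup N p A G g) (hPkg : NodalPkg G)
    (Poo P0 : Place Qb (FLb N)) (Qoo : Place (kRes A) Foo) (Q0 : Place (kRes A) F0)
    (hPoo : G.r Poo = NPt.oo Qoo) (hP0 : G.r P0 = NPt.zero Q0) (n : ℕ) (m : nodalO G)
    (hm : (m : FLb N) ∈ riemannRochSpace
      (Finsupp.single Poo (n : ℤ) + Finsupp.single P0 (n : ℤ))) :
    redOoO G m ∈ riemannRochSpace (Finsupp.single Qoo (n : ℤ)) := by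
  classical
  have H := hS.rv
  rw [mem_riemannRochSpace_iff]
  intro Q
  by_cases hx : redOoO G m = 0
  · exact Or.inl hx
  right
  have hu0 : G.redOo ⟨(m : FLb N), m.2.1⟩ ≠ 0 := hx
  have hm0 : (m : FLb N) ≠ 0 := nv_coe_ne_zero (red := G.redOo) hu0
  have hcomp := H.compOo hS.pkgL.principal
  by_cases hQn : Q ∈ Set.range G.nOo
  · -- a node branch
    obtain ⟨ν, rfl⟩ := hQn
    obtain ⟨κ, h1, -⟩ := Fermat.Agent.H69.ORD.glueO_of_pkg hS hPkg m
      (f2_nopole_node hPoo hP0 hm) ν
    have h5 : 0 ≤ (G.nOo ν).ord (redOoO G m) := f2_ord_nonneg_of_sub_const _ h1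
    rw [Finsupp.single_apply]
    split_ifs <;> omega
  · by_cases hQ : Qoo = Q
    · -- the pole
      subst hQ
      obtain ⟨D, hD⟩ := hcomp.hdiv _ hm0
      have h1 := hcomp.cons ⟨(m : FLb N), m.2.1⟩ hu0 D hD Qoo hQn
      rw [Finsupp.single_apply, if_pos rfl]
      show -(n : ℤ) ≤ Qoo.ord (G.redOo ⟨(m : FLb N), m.2.1⟩)
      rw [← h1]
      refine f2_mapDomain_ge_of_fibre G.r D (NPt.oo Qoo) Poo n hPoo ?_ ?_
      · rw [hD]
        have h2 := ((mem_riemannRochSpace_iff.mp hm) Poo).resolve_left hm0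
        rw [Finsupp.add_apply, Finsupp.single_apply, Finsupp.single_apply, if_pos rfl] at h2
        have hne : P0 ≠ Poo := by
          rintro rfl
          rw [hPoo] at hP0
          cases hP0
        rw [if_neg hne, add_zero] at h2
        exact h2
      · intro P hP hne
        rw [hD]
        refine f2_ord_nonneg_of_mem_rr_two hm hne ?_
        rintro rfl
        rw [hP0] at hP
        cases hP
    · -- a smooth point different from the pole
      have h1 : 0 ≤ Q.ord (G.redOo ⟨(m : FLb N), m.2.1⟩) :=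
        hcomp.ord_red_nonneg ⟨(m : FLb N), m.2.1⟩ hu0 Q hQn (fun P1 h => by
          refine f2_ord_nonneg_of_mem_rr_two hm ?_ ?_
          · rintro rfl
            rw [hPoo] at h
            exact hQ (NPt.oo.inj h)
          · rintro rfl
            rw [hP0] at h
            cases h)
      rw [Finsupp.single_apply, if_neg hQ]
      have h2 : Q.ord (redOoO G m) = Q.ord (G.redOo ⟨(m : FLb N), m.2.1⟩) := rfl
      rw [h2]
      omega

/-- **[RED-RR]**, the component `C_0` -/
theorem redRR_zero (hS : NodalSetup N p A G g) (hPkg : NodalPkg G)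
    (Poo P0 : Place Qb (FLb N)) (Qoo : Place (kRes A) Foo) (Q0 : Place (kRes A) F0)
    (hPoo : G.r Poo = NPt.oo Qoo) (hP0 : G.r P0 = NPt.zero Q0) (n : ℕ) (m : nodalO G)
    (hm : (m : FLb N) ∈ riemannRochSpace
      (Finsupp.single Poo (n : ℤ) + Finsupp.single P0 (n : ℤ))) :
    red0O G m ∈ riemannRochSpace (Finsupp.single Q0 (n : ℤ)) := by
  classical
  have H := hS.rv
  rw [mem_riemannRochSpace_iff]
  intro Q
  by_cases hx : red0O G m = 0
  · exact Or.inl hx
  right
  have hu0 : G.red0 ⟨(m : FLb N), m.2.2⟩ ≠ 0 := hx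
  have hm0 : (m : FLb N) ≠ 0 := nv_coe_ne_zero (red := G.red0) hu0
  have hcomp := H.compZero hS.pkgL.principal
  by_cases hQn : Q ∈ Set.range G.n0
  · -- a node branch
    obtain ⟨ν, rfl⟩ := hQn
    obtain ⟨κ, -, h1⟩ := Fermat.Agent.H69.ORD.glueO_of_pkg hS hPkg m
      (f2_nopole_node hPoo hP0 hm) ν
    have h5 : 0 ≤ (G.n0 ν).ord (red0O G m) := f2_ord_nonneg_of_sub_const _ h1
    rw [Finsupp.single_apply]
    split_ifs <;> omega
  · by_cases hQ : Q0 = Q
    · -- the pole
      subst hQ
      obtain ⟨D, hD⟩ := hcomp.hdiv _ hm0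
      have h1 := hcomp.cons ⟨(m : FLb N), m.2.2⟩ hu0 D hD Q0 hQn
      rw [Finsupp.single_apply, if_pos rfl]
      show -(n : ℤ) ≤ Q0.ord (G.red0 ⟨(m : FLb N), m.2.2⟩)
      rw [← h1]
      refine f2_mapDomain_ge_of_fibre G.r D (NPt.zero Q0) P0 n hP0 ?_ ?_
      · rw [hD]
        have h2 := ((mem_riemannRochSpace_iff.mp hm) P0).resolve_left hm0
        rw [Finsupp.add_apply, Finsupp.single_apply, Finsupp.single_apply, if_pos rfl] at h2
        have hne : Poo ≠ P0 := by
          rintro rfl
          rw [hPoo] at hP0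
          cases hP0
        rw [if_neg hne, zero_add] at h2
        exact h2
      · intro P hP hne
        rw [hD]
        refine f2_ord_nonneg_of_mem_rr_two hm ?_ hne
        rintro rfl
        rw [hPoo] at hP
        cases hP
    · -- a smooth point different from the pole
      have h1 : 0 ≤ Q.ord (G.red0 ⟨(m : FLb N), m.2.2⟩) :=
        hcomp.ord_red_nonneg ⟨(m : FLb N), m.2.2⟩ hu0 Q hQn (fun P1 h => by
          refine f2_ord_nonneg_of_mem_rr_two hm ?_ ?_
          · rintro rfl
            rw [hPoo] at h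
            cases h
          · rintro rfl
            rw [hP0] at h
            exact hQ (NPt.zero.inj h))
      rw [Finsupp.single_apply, if_neg hQ]
      have h2 : Q.ord (red0O G m) = Q.ord (G.red0 ⟨(m : FLb N), m.2.2⟩) := rfl
      rw [h2]
      omega

/-- **[RED-RR]** -/
theorem redRR : RedRRStatement := by
  intro N p A Foo F0 _ _ _ _ ι G g hS hPkg Poo P0 Qoo Q0 hPoo hP0 n m hm
  exact ⟨redRR_oo hS hPkg Poo P0 Qoo Q0 hPoo hP0 n m hm,
    redRR_zero hS hPkg Poo P0 Qoo Q0 hPoo hP0 n m hm⟩

/-- **[GLUE-O]** in the shape of `GlueOStatement` (helper69's `glueO_of_pkg`) -/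
theorem glueOStatement : GlueOStatement := by
  intro N p A Foo F0 _ _ _ _ ι G g hS hPkg m hm
  exact Fermat.Agent.H69.ORD.glueO_of_pkg hS hPkg m hm

end Fermat.Agent.H10.ORD

end
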