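/-
P-ORD (S33), block (G-B), row 1149 N-F2 (helper10): the first half of the nodal two-step.

`f2FamilyN : AuxSectionsN → LiftBasisN → MovingZerosN → RedKernelN → CramerStatement →
    F2FamilyN`

(`Fermat.Agent.H10.ORD.f2FamilyN_of` with GLUE-O by helper69 and RED-RR from
`Fermat.Agent.H10.ORD.RedRR`).
-/
import Fermat.Agent.H10.ORD.F2Main
import Fermat.Agent.H10.ORD.RedRR

set_option autoImplicit false

noncomputable section

namespace Fermat.Agent.H10.ORD

open Fermat.Agent.H94.FF Fermat.Agent.H94.ORD

/-- **[N-F2]** the first half of the nodal two-step. -/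
theorem f2FamilyN : AuxSectionsN → LiftBasisN → MovingZerosN → RedKernelN → CramerStatement →
    F2FamilyN :=
  f2FamilyN_of glueOStatement redRR

end Fermat.Agent.H10.ORD

end
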