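/-
P-ORD (S33), block B1, leaf [INTQ] (helper10): elements of the integral closure have INTEGRAL
`q`-expansions.

Setting of `Fermat.Agent.H22.KL` : `K₁` a field of characteristic zero, `A₀` a principal ideal
domain (e.g. a discrete valuation ring) with fraction field `K₁`,
`E = ModelField K₁ N ⊆ K₁((q))`.

* `intq_isIntegrallyClosed_laurent` : `A₀((q))` is integrally closed (Mathlib: `A₀⟦X⟧` is a
  unique factorisation domain for a principal ideal domain `A₀`);
* `intq_mem_range_of_integral` : an element of a field which is a quotient of elements of an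
  integrally closed subring and integral over it lies in the subring;
* `intq_model_mem_closure` : `ModelField K₁ N ⊆ Frac (A₀((q)))` (by generators);
* `intQ_model` : **[INTQ]** if `y ∈ E` has `A₀`-integral `q`-expansion, every element of the
  integral closure `chartClosure A₀ E y` of `A₀[y]` in `E` has `A₀`-integral `q`-expansion;
* `intq_jqd_mem`, `intq_jqd_inv_mem` : the coordinates `j(q^d)`, `j(q^d)⁻¹` have integral
  `q`-expansions.
-/
import Mathlib
import Fermat.Prelude.Def_ModularCurve_X0ModL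
import Fermat.Agent.H22.ES.KLModel
import Fermat.Agent.H48.KL.QExpLift

set_option autoImplicit false
set_option linter.unusedSectionVars false
set_option linter.style.haveILetI false

noncomputable section

namespace Fermat.Agent.H10.ORD

open Polynomial ModularCurve Fermat.Agent.H22.KL

/-! ### Mathlib only -/

/-- Laurent series over a principal ideal domain form an integrally closed domain. -/
theorem intq_isIntegrallyClosed_laurent (R : Type*) [CommRing R] [IsDomain R]
    [IsPrincipalIdealRing R] : IsIntegrallyClosed (LaurentSeries R) :=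
  isIntegrallyClosed_of_isLocalization (R := PowerSeries R) (LaurentSeries R)
    (Submonoid.powers (PowerSeries.X : PowerSeries R))
    (by
      intro x hx
      obtain ⟨n, rfl⟩ := hx
      exact mem_nonZeroDivisors_of_ne_zero (pow_ne_zero _ PowerSeries.X_ne_zero))

/-- An element of a field `L` which is a quotient of elements of an integrally closed domain
`R' ⊆ L` and is integral over `R'` lies in `R'`. -/
theorem intq_mem_range_of_integral {R' L : Type*} [CommRing R'] [IsDomain R']
    [IsIntegrallyClosed R'] [Field L] (ι : R' →+* L) (hι : Function.Injective ι) (z : L)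
    (hfrac : z ∈ Subfield.closure (Set.range ι)) (hint : ι.IsIntegralElem z) :
    z ∈ Set.range ι := by
  let φ : FractionRing R' →+* L := IsFractionRing.lift hι
  have hφ : ∀ r, φ (algebraMap R' (FractionRing R') r) = ι r := fun r =>
    IsFractionRing.lift_algebraMap hι r
  have hle : Subfield.closure (Set.range ι) ≤ φ.fieldRange := by
    rw [Subfield.closure_le]
    rintro _ ⟨r, rfl⟩
    exact ⟨algebraMap R' (FractionRing R') r, hφ r⟩
  obtain ⟨z', rfl⟩ := hle hfrac
  obtain ⟨p, hp, hpz⟩ := hint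
  have h1 : φ (eval₂ (algebraMap R' (FractionRing R')) z' p) = 0 := by
    rw [Polynomial.hom_eval₂]
    have : φ.comp (algebraMap R' (FractionRing R')) = ι := RingHom.ext hφ
    rw [this]
    exact hpz
  have h2 : eval₂ (algebraMap R' (FractionRing R')) z' p = 0 :=
    φ.injective (by rw [h1, map_zero])
  have h3 : IsIntegral R' z' := ⟨p, hp, h2⟩
  obtain ⟨r, rfl⟩ := IsIntegrallyClosed.isIntegral_iff.mp h3
  exact ⟨r, (hφ r).symm⟩

/-! ### Laurent series -/

section Series

variable {A₀ K₁ : Type*} [CommRing A₀] [Field K₁] [Algebra A₀ K₁]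

/-- the series with coefficients in (the image of) `A₀` -/
def intqSeries (A₀ K₁ : Type*) [CommRing A₀] [Field K₁] [Algebra A₀ K₁] :
    Subring (LaurentSeries K₁) :=
  (coeffMap (algebraMap A₀ K₁)).range

theorem mem_intqSeries_iff [IsDomain A₀] [IsFractionRing A₀ K₁] (z : LaurentSeries K₁) :
    z ∈ intqSeries A₀ K₁ ↔ ∀ n : ℤ, z.coeff n ∈ (algebraMap A₀ K₁).range := by
  constructor
  · rintro ⟨y, rfl⟩ n
    exact ⟨y.coeff n, (coeffMap_coeff _ y n).symm⟩
  · intro h
    obtain ⟨g, hg⟩ := Fermat.Agent.H48.QExp.exists_coeffMap_eq (algebraMap A₀ K₁)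
      (IsFractionRing.injective A₀ K₁) z h
    exact ⟨g, hg⟩

theorem intq_algebraMap_mem (a : A₀) :
    algebraMap K₁ (LaurentSeries K₁) (algebraMap A₀ K₁ a) ∈ intqSeries A₀ K₁ :=
  ⟨algebraMap A₀ (LaurentSeries A₀) a,
    Fermat.Agent.H48.QExp.coeffMap_algebraMap_gen (algebraMap A₀ K₁) a⟩

/-- the field of fractions of the integral series, inside `K₁((q))` -/
def intqFrac (A₀ K₁ : Type*) [CommRing A₀] [Field K₁] [Algebra A₀ K₁] :
    Subfield (LaurentSeries K₁) :=
  Subfield.closure (Set.range (coeffMap (algebraMap A₀ K₁)))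

theorem intqSeries_le_frac {z : LaurentSeries K₁} (hz : z ∈ intqSeries A₀ K₁) :
    z ∈ intqFrac A₀ K₁ :=
  Subfield.subset_closure hz

theorem intq_const_mem_frac [IsDomain A₀] [IsFractionRing A₀ K₁] (c : K₁) :
    algebraMap K₁ (LaurentSeries K₁) c ∈ intqFrac A₀ K₁ := by
  obtain ⟨a, b, hb, rfl⟩ := IsFractionRing.div_surjective (A := A₀) c
  rw [map_div₀]
  exact (intqFrac A₀ K₁).div_mem (intqSeries_le_frac (intq_algebraMap_mem a))
    (intqSeries_le_frac (intq_algebraMap_mem b))

theorem intq_coeffMap_qExpand {R S : Type*} [CommRing R] [CommRing S] (f : R →+* S) (n : ℕ)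
    [NeZero n] (x : LaurentSeries R) :
    coeffMap f (qExpand R n x) = qExpand S n (coeffMap f x) := by
  ext k
  by_cases hk : (n : ℤ) ∣ k
  · obtain ⟨m, rfl⟩ := hk
    rw [coeffMap_coeff, qExpand_coeff_mul, qExpand_coeff_mul, coeffMap_coeff]
  · rw [coeffMap_coeff, qExpand_coeff_of_not_dvd n _ hk, qExpand_coeff_of_not_dvd n _ hk,
      map_zero]

/-- `j(q^d)` has integral coefficients -/
theorem intq_jqd_mem [Algebra ℚ K₁] (d : ℕ) [NeZero d] :
    coeffEmb K₁ (qExpand ℚ d jq) ∈ intqSeries A₀ K₁ := by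
  refine ⟨qExpand A₀ d (jqModC A₀), ?_⟩
  rw [intq_coeffMap_qExpand, coeffMap_jqModC, coeffEmb, intq_coeffMap_qExpand, ← jqModC_rat,
    coeffMap_jqModC]

/-- `j(q)` is a unit of `R((q))` -/
theorem intq_isUnit_jqModC (R : Type*) [CommRing R] : IsUnit (jqModC R) := by
  unfold jqModC
  refine IsUnit.mul ?_ ?_
  · refine IsUnit.of_mul_eq_one (HahnSeries.single (1 : ℤ) (1 : R)) ?_
    rw [HahnSeries.single_mul_single]
    simp
  · refine IsUnit.map (HahnSeries.ofPowerSeries ℤ R) ?_
    rw [PowerSeries.isUnit_iff_constantCoeff]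
    have h1 : PowerSeries.constantCoeff (jNum.map (Int.castRingHom R)) = 1 := by
      rw [← PowerSeries.coeff_zero_eq_constantCoeff_apply, PowerSeries.coeff_map,
        PowerSeries.coeff_zero_eq_constantCoeff_apply, constantCoeff_jNum, map_one]
    rw [h1]
    exact isUnit_one

/-- `j(q^d)⁻¹` has integral coefficients -/
theorem intq_jqd_inv_mem [Algebra ℚ K₁] (d : ℕ) [NeZero d] :
    (coeffEmb K₁ (qExpand ℚ d jq))⁻¹ ∈ intqSeries A₀ K₁ := by
  have hu : IsUnit (qExpand A₀ d (jqModC A₀)) := (intq_isUnit_jqModC A₀).map (qExpand A₀ d)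
  obtain ⟨u, hu⟩ := hu
  refine ⟨((u⁻¹ : (LaurentSeries A₀)ˣ) : LaurentSeries A₀), ?_⟩
  have h1 : coeffMap (algebraMap A₀ K₁) (qExpand A₀ d (jqModC A₀)) =
      coeffEmb K₁ (qExpand ℚ d jq) := by
    rw [intq_coeffMap_qExpand, coeffMap_jqModC, coeffEmb, intq_coeffMap_qExpand, ← jqModC_rat,
      coeffMap_jqModC]
  rw [← h1, ← hu]
  refine eq_inv_of_mul_eq_one_left ?_
  rw [← map_mul, Units.inv_mul, map_one]

end Series

/-! ### The model fields -/

section Model

variable (K₁ : Type) [Field K₁] [Algebra ℚ K₁] (A₀ : Type) [CommRing A₀] [IsDomain A₀]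
  [Algebra A₀ K₁] [IsFractionRing A₀ K₁] (N : ℕ)

/-- `ModelField K₁ N ⊆ Frac (A₀((q)))` -/
theorem intq_model_mem_closure (z : ModelField K₁ N) :
    (z : LaurentSeries K₁) ∈ intqFrac A₀ K₁ := by
  have hz := z.2
  rw [mem_laurentBaseChange_iff] at hz
  have hle : Subfield.closure (Set.range (algebraMap K₁ (LaurentSeries K₁)) ∪
      (⇑(coeffEmb K₁) '' (modularFunctionFieldFull N : Set (LaurentSeries ℚ)))) ≤
      intqFrac A₀ K₁ := by
    rw [Subfield.closure_le]
    rintro x (⟨c, rfl⟩ | ⟨y, hy, rfl⟩)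
    · exact intq_const_mem_frac c
    · -- `y ∈ ℚ(j(q^d) : d ∣ N)`
      have hy' : y ∈ Subfield.closure (Set.range (algebraMap ℚ (LaurentSeries ℚ)) ∪
          divisorExpansions N) := hy
      have hle2 : Subfield.closure (Set.range (algebraMap ℚ (LaurentSeries ℚ)) ∪
          divisorExpansions N) ≤ (intqFrac A₀ K₁).comap (coeffEmb K₁) := by
        rw [Subfield.closure_le]
        rintro w (⟨r, rfl⟩ | ⟨d, hd0, hd, rfl⟩)
        · show coeffEmb K₁ (algebraMap ℚ (LaurentSeries ℚ) r) ∈ intqFrac A₀ K₁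
          have h1 : coeffEmb K₁ (algebraMap ℚ (LaurentSeries ℚ) r) =
              algebraMap K₁ (LaurentSeries K₁) (algebraMap ℚ K₁ r) :=
            Fermat.Agent.H48.QExp.coeffMap_algebraMap_gen (algebraMap ℚ K₁) r
          rw [h1]
          exact intq_const_mem_frac _
        · show coeffEmb K₁ (qExpand ℚ d jq) ∈ intqFrac A₀ K₁
          exact intqSeries_le_frac (intq_jqd_mem d)
      exact hle2 hy'
  exact hle hz

variable [IsPrincipalIdealRing A₀] [Algebra A₀ (ModelField K₁ N)]
  [IsScalarTower A₀ K₁ (ModelField K₁ N)]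

theorem intq_coe_algebraMap (a : A₀) :
    ((algebraMap A₀ (ModelField K₁ N) a : ModelField K₁ N) : LaurentSeries K₁) =
      algebraMap K₁ (LaurentSeries K₁) (algebraMap A₀ K₁ a) := by
  rw [IsScalarTower.algebraMap_apply A₀ K₁ (ModelField K₁ N)]
  rfl

/-- the elements of `A₀[y]` have integral `q`-expansions -/
theorem intq_chartRing_mem (y : ModelField K₁ N)
    (hy : (y : LaurentSeries K₁) ∈ intqSeries A₀ K₁) (w : ModelField K₁ N)
    (hw : w ∈ chartRing A₀ (ModelField K₁ N) y) :
    (w : LaurentSeries K₁) ∈ intqSeries A₀ K₁ := by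
  unfold chartRing at hw
  induction hw using Algebra.adjoin_induction with
  | mem x hx =>
    rw [Set.mem_singleton_iff] at hx
    rw [hx]
    exact hy
  | algebraMap a =>
    rw [intq_coe_algebraMap]
    exact intq_algebraMap_mem a
  | add x x' _ _ hx hx' =>
    have : ((x + x' : ModelField K₁ N) : LaurentSeries K₁) =
        (x : LaurentSeries K₁) + (x' : LaurentSeries K₁) := rfl
    rw [this]
    exact (intqSeries A₀ K₁).add_mem hx hx'
  | mul x x' _ _ hx hx' =>
    have : ((x * x' : ModelField K₁ N) : LaurentSeries K₁) =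
        (x : LaurentSeries K₁) * (x' : LaurentSeries K₁) := rfl
    rw [this]
    exact (intqSeries A₀ K₁).mul_mem hx hx'

/-- **[INTQ]** the elements of the integral closure of `A₀[y]` in the model field have
`A₀`-integral `q`-expansions, if `y` has. -/
theorem intQ_model_mem (y : ModelField K₁ N)
    (hy : (y : LaurentSeries K₁) ∈ intqSeries A₀ K₁) (z : ModelField K₁ N)
    (hz : z ∈ chartClosure A₀ (ModelField K₁ N) y) :
    (z : LaurentSeries K₁) ∈ intqSeries A₀ K₁ := by
  classical
  haveI : IsIntegrallyClosed (LaurentSeries A₀) := intq_isIntegrallyClosed_laurent A₀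
  set ι : LaurentSeries A₀ →+* LaurentSeries K₁ := coeffMap (algebraMap A₀ K₁) with hι
  have hinj : Function.Injective ι :=
    Fermat.Agent.H48.QExp.coeffMap_inj _ (IsFractionRing.injective A₀ K₁)
  -- the integrality equation
  have hz' : IsIntegral (chartRing A₀ (ModelField K₁ N) y) z := hz
  obtain ⟨p, hp, hpz⟩ := hz'
  -- the coefficients, as integral series
  let val : ModelField K₁ N →+* LaurentSeries K₁ :=
    (laurentBaseChange K₁ (modularFunctionFieldFull N)).toSubfield.subtype
  let χ : chartRing A₀ (ModelField K₁ N) y →+* LaurentSeries K₁ :=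
    val.comp (algebraMap (chartRing A₀ (ModelField K₁ N) y) (ModelField K₁ N))
  have hχ : ∀ w, χ w ∈ ι.range := fun w => intq_chartRing_mem K₁ A₀ N y hy w.1 w.2
  let e : LaurentSeries A₀ ≃+* ι.range :=
    RingEquiv.ofBijective ι.rangeRestrict
      ⟨fun a b h => hinj (congrArg Subtype.val h), ι.rangeRestrict_surjective⟩
  let ψ : chartRing A₀ (ModelField K₁ N) y →+* LaurentSeries A₀ :=
    (e.symm : ι.range →+* LaurentSeries A₀).comp (χ.codRestrict ι.range hχ)
  have hψ : ι.comp ψ = χ := by
    ext1 w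
    have h1 : ι (e.symm (χ.codRestrict ι.range hχ w)) =
        ((e (e.symm (χ.codRestrict ι.range hχ w)) : ι.range) : LaurentSeries K₁) := rfl
    show ι (e.symm (χ.codRestrict ι.range hχ w)) = χ w
    rw [h1, RingEquiv.apply_symm_apply]
    rfl
  have hint : ι.IsIntegralElem (val z) := by
    refine ⟨p.map ψ, hp.map ψ, ?_⟩
    rw [Polynomial.eval₂_map, hψ]
    have h2 : eval₂ χ (val z) p =
        val (eval₂ (algebraMap (chartRing A₀ (ModelField K₁ N) y) (ModelField K₁ N)) z p) :=
      (Polynomial.hom_eval₂ p _ val z).symm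
    rw [h2, hpz, map_zero]
  exact intq_mem_range_of_integral ι hinj (val z) (intq_model_mem_closure K₁ A₀ N z) hint

/-- **[INTQ]**, coefficient form. -/
theorem intQ_model (y : ModelField K₁ N)
    (hy : ∀ n : ℤ, (y : LaurentSeries K₁).coeff n ∈ (algebraMap A₀ K₁).range)
    (z : ModelField K₁ N) (hz : z ∈ chartClosure A₀ (ModelField K₁ N) y) (n : ℤ) :
    (z : LaurentSeries K₁).coeff n ∈ (algebraMap A₀ K₁).range :=
  (mem_intqSeries_iff _).mp
    (intQ_model_mem K₁ A₀ N y ((mem_intqSeries_iff _).mpr hy) z hz) n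

end Model

end Fermat.Agent.H10.ORD

end
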