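/-
P-ORD (S33), block B1, leaf [INTQ] at the `ℚ̄`-level (helper10): the elements of the charts
`B̄(y) = nmChart N A y` (`y = j(q^d)` or `j(q^d)⁻¹`) have `A`-integral `q`-expansions, and so
have their images under the Atkin-Lehner automorphism `W = nmW`.

* `intQ_bar` : general form, `y = ratBar w` for `w ∈ ℚ(X₀(N))` with `A`-integral expansion;
* `intQ_bar_jBarD`, `intQ_bar_jBarD_inv` : `y = j(q^d)`, `y = j(q^d)⁻¹`;
* `intQ_bar_nmJ`, `intQ_bar_nmJ_inv`, `intQ_bar_nmY` : the charts of `nmG`;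
* `nmChart_map_algEquiv` : `f ∈ B̄(y) → W f ∈ B̄(W y)` for every `ℚ̄`-automorphism `W`;
* `intQ_bar_W_nmJ`, `intQ_bar_W_nmJ_inv`, `intQ_bar_W_nmY` : the expansions of `W f`.

Proof: descent of integrality to a number field (`Fermat.Agent.H66.ORD.exists_descent_nmChart`,
helper66), `A ∩ K` is a discrete valuation ring (`Fermat.Agent.H34.modelDVR`), and the
number-field leaf `Fermat.Agent.H10.ORD.intQ_model`.
-/
import Fermat.Agent.H10.ORD.IntQ
import Fermat.Agent.H66.ORD.DescDict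
import Fermat.Agent.H34.KLM.DVR

set_option autoImplicit false
set_option synthInstance.maxHeartbeats 400000
set_option maxHeartbeats 1600000
set_option linter.unusedSectionVars false
set_option linter.style.haveILetI false

noncomputable section

namespace Fermat.Agent.H10.ORD

open Polynomial ModularCurve AlgebraicCurve
open Fermat.Agent.H22.KL Fermat.Agent.H93.KL Fermat.Agent.H84.ORD Fermat.Agent.H72.FF
  Fermat.Agent.H9.E6

variable (N : ℕ) (A : ValuationSubring QBar)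

/-- the series over `ℚ̄` with coefficients in `A` -/
theorem mem_intqSeries_bar_iff (z : LaurentSeries QBar) :
    z ∈ intqSeries ↥A QBar ↔ ∀ n : ℤ, z.coeff n ∈ A := by
  rw [mem_intqSeries_iff]
  constructor
  · intro h n
    obtain ⟨a, ha⟩ := h n
    rw [← ha]
    exact a.2
  · intro h n
    exact ⟨⟨z.coeff n, h n⟩, rfl⟩

/-- **[INTQ] at the `ℚ̄`-level**, general form. -/
theorem intQ_bar (ℓ : ℕ) (hℓ : ℓ.Prime) (hA : A.LiesOverPrime ℓ)
    (w : ↥(modularFunctionFieldFull N))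
    (hw : coeffEmb QBar (w : LaurentSeries ℚ) ∈ intqSeries ↥A QBar) (f : FLb N)
    (hf : f ∈ nmChart N A (Fermat.Agent.H62.SS.ratBar (modularFunctionFieldFull N) w))
    (n : ℤ) : (f : LaurentSeries QBar).coeff n ∈ A := by
  obtain ⟨K₀, hK₀, h⟩ := Fermat.Agent.H66.ORD.exists_descent_nmChart w f hf
  obtain ⟨f₁, hf₁, hmem⟩ := h K₀ le_rfl
  haveI := hK₀
  haveI : IsDiscreteValuationRing ↥(A.comap (algebraMap ↥K₀ QBar)) :=
    Fermat.Agent.H34.modelDVR ↥K₀ (algebraMap ↥K₀ QBar) A ℓ hℓ hA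
  letI := modelAlgebra ↥K₀ (A.comap (algebraMap ↥K₀ QBar)) N
  haveI := modelAlgebra_isScalarTower ↥K₀ (A.comap (algebraMap ↥K₀ QBar)) N
  have hy : ∀ n : ℤ,
      ((Fermat.Agent.H62.SS.ratK (K₁ := ↥K₀) (modularFunctionFieldFull N) w :
        ModelField ↥K₀ N) : LaurentSeries ↥K₀).coeff n ∈
        (algebraMap ↥(A.comap (algebraMap ↥K₀ QBar)) ↥K₀).range := by
    intro n
    have h1 := (mem_intqSeries_bar_iff A _).mp hw n
    have h2 : (coeffEmb QBar (w : LaurentSeries ℚ)).coeff n =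
        algebraMap ↥K₀ QBar (algebraMap ℚ ↥K₀ ((w : LaurentSeries ℚ).coeff n)) := by
      rw [coeffEmb_coeff]
      exact IsScalarTower.algebraMap_apply ℚ ↥K₀ QBar _
    rw [h2] at h1
    exact ⟨⟨algebraMap ℚ ↥K₀ ((w : LaurentSeries ℚ).coeff n), h1⟩, rfl⟩
  obtain ⟨a, ha⟩ := intQ_model ↥K₀ ↥(A.comap (algebraMap ↥K₀ QBar)) N _ hy f₁ hmem n
  have h3 : (f : LaurentSeries QBar).coeff n =
      algebraMap ↥K₀ QBar ((f₁ : LaurentSeries ↥K₀).coeff n) := by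
    rw [← hf₁]
    rfl
  rw [h3, ← ha]
  exact a.2

variable [NeZero N]

/-- **[INTQ]**, the chart `y = j(q^d)`. -/
theorem intQ_bar_jBarD (ℓ : ℕ) (hℓ : ℓ.Prime) (hA : A.LiesOverPrime ℓ) (d : ℕ) [NeZero d]
    (hd : d ∣ N) (f : FLb N) (hf : f ∈ nmChart N A (Fermat.Agent.H23.jBarD N d hd)) (n : ℤ) :
    (f : LaurentSeries QBar).coeff n ∈ A :=
  intQ_bar N A ℓ hℓ hA ⟨qExpand ℚ d jq, jqd_mem_full N hd⟩ (intq_jqd_mem d) f hf n

/-- **[INTQ]**, the chart `y = j(q^d)⁻¹`. -/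
theorem intQ_bar_jBarD_inv (ℓ : ℕ) (hℓ : ℓ.Prime) (hA : A.LiesOverPrime ℓ) (d : ℕ) [NeZero d]
    (hd : d ∣ N) (f : FLb N) (hf : f ∈ nmChart N A (Fermat.Agent.H23.jBarD N d hd)⁻¹)
    (n : ℤ) : (f : LaurentSeries QBar).coeff n ∈ A := by
  have hw : coeffEmb QBar
      (((⟨qExpand ℚ d jq, jqd_mem_full N hd⟩ : ↥(modularFunctionFieldFull N))⁻¹ :
        ↥(modularFunctionFieldFull N)) : LaurentSeries ℚ) ∈ intqSeries ↥A QBar := by
    have h1 : (((⟨qExpand ℚ d jq, jqd_mem_full N hd⟩ : ↥(modularFunctionFieldFull N))⁻¹ :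
        ↥(modularFunctionFieldFull N)) : LaurentSeries ℚ) = (qExpand ℚ d jq)⁻¹ := rfl
    rw [h1, map_inv₀]
    exact intq_jqd_inv_mem d
  have hy : Fermat.Agent.H62.SS.ratBar (modularFunctionFieldFull N)
      ((⟨qExpand ℚ d jq, jqd_mem_full N hd⟩ : ↥(modularFunctionFieldFull N))⁻¹) =
      (Fermat.Agent.H23.jBarD N d hd)⁻¹ := by
    rw [map_inv₀]
    rfl
  rw [← hy] at hf
  exact intQ_bar N A ℓ hℓ hA _ hw f hf n

/-- **[INTQ]**, the chart `j`. -/
theorem intQ_bar_nmJ (ℓ : ℕ) (hℓ : ℓ.Prime) (hA : A.LiesOverPrime ℓ) (f : FLb N)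
    (hf : f ∈ nmChart N A (nmJ N)) (n : ℤ) : (f : LaurentSeries QBar).coeff n ∈ A :=
  intQ_bar_jBarD N A ℓ hℓ hA 1 (one_dvd N) f hf n

/-- **[INTQ]**, the chart `j⁻¹`. -/
theorem intQ_bar_nmJ_inv (ℓ : ℕ) (hℓ : ℓ.Prime) (hA : A.LiesOverPrime ℓ) (f : FLb N)
    (hf : f ∈ nmChart N A (nmJ N)⁻¹) (n : ℤ) : (f : LaurentSeries QBar).coeff n ∈ A :=
  intQ_bar_jBarD_inv N A ℓ hℓ hA 1 (one_dvd N) f hf n

/-- **[INTQ]**, the chart of a place. -/
theorem intQ_bar_nmY (ℓ : ℕ) (hℓ : ℓ.Prime) (hA : A.LiesOverPrime ℓ)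
    (P : Place Qb (FLb N)) (f : FLb N) (hf : f ∈ nmChart N A (nmY A P)) (n : ℤ) :
    (f : LaurentSeries QBar).coeff n ∈ A := by
  classical
  unfold nmY at hf
  split_ifs at hf with h
  · exact intQ_bar_nmJ N A ℓ hℓ hA f hf n
  · exact intQ_bar_nmJ_inv N A ℓ hℓ hA f hf n

omit [NeZero N] in
/-- a `ℚ̄`-automorphism maps the chart `B̄(y)` into the chart `B̄(W y)` -/
theorem nmChart_map_algEquiv (W : FLb N ≃ₐ[Qb] FLb N) (y f : FLb N)
    (hf : f ∈ nmChart N A y) : W f ∈ nmChart N A (W y) := by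
  have hmem : ∀ c ∈ nmPoly N A y, W c ∈ nmPoly N A (W y) := by
    intro c hc
    unfold nmPoly at hc
    induction hc using Subring.closure_induction with
    | mem x hx =>
      rcases hx with ⟨a, ha, rfl⟩ | hx
      · have h1 : W (algebraMap Qb (FLb N) a) = algebraMap Qb (FLb N) a := W.commutes a
        rw [h1]
        exact Fermat.Agent.H66.ORD.algebraMap_mem_nmPoly N A _ ha
      · rw [Set.mem_singleton_iff] at hx
        rw [hx]
        exact Fermat.Agent.H66.ORD.self_mem_nmPoly N A _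
    | zero => rw [map_zero]; exact Subring.zero_mem _
    | one => rw [map_one]; exact Subring.one_mem _
    | add x z _ _ hx hz => rw [map_add]; exact Subring.add_mem _ hx hz
    | neg x _ hx => rw [map_neg]; exact Subring.neg_mem _ hx
    | mul x z _ _ hx hz => rw [map_mul]; exact Subring.mul_mem _ hx hz
  let φ : ↥(nmPoly N A y) →+* ↥(nmPoly N A (W y)) :=
    RingHom.codRestrict (((W : FLb N ≃ₐ[Qb] FLb N) : FLb N →+* FLb N).comp
      (nmPoly N A y).subtype) _ (fun c => hmem c c.2)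
  obtain ⟨q, hq, hroot⟩ := (mem_nmChart_iff N A y f).1 hf
  rw [mem_nmChart_iff]
  refine ⟨q.map φ, hq.map φ, ?_⟩
  rw [Polynomial.eval₂_map]
  have hcomp : (nmPoly N A (W y)).subtype.comp φ =
      ((W : FLb N ≃ₐ[Qb] FLb N) : FLb N →+* FLb N).comp (nmPoly N A y).subtype :=
    RingHom.ext fun c => rfl
  rw [hcomp]
  have h2 : eval₂ (((W : FLb N ≃ₐ[Qb] FLb N) : FLb N →+* FLb N).comp
      (nmPoly N A y).subtype) (W f) q =
      ((W : FLb N ≃ₐ[Qb] FLb N) : FLb N →+* FLb N) (eval₂ (nmPoly N A y).subtype f q) :=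
    (Polynomial.hom_eval₂ q _ ((W : FLb N ≃ₐ[Qb] FLb N) : FLb N →+* FLb N) f).symm
  rw [h2, hroot, map_zero]

end Fermat.Agent.H10.ORD

namespace Fermat.Agent.H10.ORD

open Polynomial ModularCurve AlgebraicCurve
open Fermat.Agent.H22.KL Fermat.Agent.H93.KL Fermat.Agent.H84.ORD Fermat.Agent.H72.FF
  Fermat.Agent.H9.E6

variable (M p : ℕ) [NeZero M] [NeZero p] (hcop : Nat.Coprime M p) (A : ValuationSubring QBar)

/-- **[INTQ] for `W f`**, the chart `j`. -/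
theorem intQ_bar_W_nmJ (ℓ : ℕ) (hℓ : ℓ.Prime) (hA : A.LiesOverPrime ℓ) (f : FLb (M * p))
    (hf : f ∈ nmChart (M * p) A (nmJ (M * p))) (n : ℤ) :
    ((nmW M p hcop f : FLb (M * p)) : LaurentSeries QBar).coeff n ∈ A := by
  obtain ⟨d'', hd0, hd'', hW, -⟩ := (nmW_spec M p hcop).1 1 inferInstance (one_dvd (M * p))
  have h1 := nmChart_map_algEquiv (M * p) A (nmW M p hcop) _ f hf
  have h2 : nmW M p hcop (nmJ (M * p)) = Fermat.Agent.H23.jBarD (M * p) d'' hd'' := hW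
  rw [h2] at h1
  exact intQ_bar_jBarD (M * p) A ℓ hℓ hA d'' hd'' _ h1 n

/-- **[INTQ] for `W f`**, the chart `j⁻¹`. -/
theorem intQ_bar_W_nmJ_inv (ℓ : ℕ) (hℓ : ℓ.Prime) (hA : A.LiesOverPrime ℓ)
    (f : FLb (M * p)) (hf : f ∈ nmChart (M * p) A (nmJ (M * p))⁻¹) (n : ℤ) :
    ((nmW M p hcop f : FLb (M * p)) : LaurentSeries QBar).coeff n ∈ A := by
  obtain ⟨d'', hd0, hd'', hW, -⟩ := (nmW_spec M p hcop).1 1 inferInstance (one_dvd (M * p))
  have h1 := nmChart_map_algEquiv (M * p) A (nmW M p hcop) _ f hf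
  have h2 : nmW M p hcop (nmJ (M * p))⁻¹ = (Fermat.Agent.H23.jBarD (M * p) d'' hd'')⁻¹ := by
    rw [map_inv₀]
    exact congrArg _ hW
  rw [h2] at h1
  exact intQ_bar_jBarD_inv (M * p) A ℓ hℓ hA d'' hd'' _ h1 n

/-- **[INTQ] for `W f`**, the chart of a place. -/
theorem intQ_bar_W_nmY (ℓ : ℕ) (hℓ : ℓ.Prime) (hA : A.LiesOverPrime ℓ)
    (P : Place Qb (FLb (M * p))) (f : FLb (M * p))
    (hf : f ∈ nmChart (M * p) A (nmY A P)) (n : ℤ) :
    ((nmW M p hcop f : FLb (M * p)) : LaurentSeries QBar).coeff n ∈ A := by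
  classical
  unfold nmY at hf
  split_ifs at hf with h
  · exact intQ_bar_W_nmJ M p hcop A ℓ hℓ hA f hf n
  · exact intQ_bar_W_nmJ_inv M p hcop A ℓ hℓ hA f hf n

end Fermat.Agent.H10.ORD

end
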